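import Mathlib.RingTheory.AdicCompletion.Basic

/-!
# S53 (helper86): the limit / tower algebra ("Cauchy-sum lemma")

Pure commutative algebra about a decreasing chain of ideals `K j` of an `I`-adically complete
ring `P` with `I ^ e j ≤ K j ≤ K (j+1) ⊔ I ^ e j`: then `K j = (⨅ m, K m) ⊔ I ^ e j`, and
compatible families modulo the `K j` come from elements of `P`.
-/

set_option autoImplicit false

namespace Fermat.Agent.S53.H86

open Ideal

variable {P : Type*} [CommRing P]

/-- A sequence whose successive differences lie in `I ^ n` has an `I`-adic limit. -/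
theorem exists_adic_limit (I : Ideal P) [IsPrecomplete I P] (s : ℕ → P)
    (hs : ∀ n, s (n + 1) - s n ∈ I ^ n) : ∃ L : P, ∀ n, L - s n ∈ I ^ n := by
  have hmn : ∀ m n : ℕ, m ≤ n → s n - s m ∈ I ^ m := by
    intro m n hmn
    induction n, hmn using Nat.le_induction with
    | base => simp
    | succ n hmn ih =>
      have h1 : s (n + 1) - s n ∈ I ^ m := Ideal.pow_le_pow_right hmn (hs n)
      have : s (n + 1) - s m = (s (n + 1) - s n) + (s n - s m) := by ring
      rw [this]
      exact Ideal.add_mem _ h1 ih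
  obtain ⟨L, hL⟩ := IsPrecomplete.prec (I := I) (M := P) inferInstance (f := s) (by
    intro m n hmn'
    rw [SModEq.sub_mem, smul_eq_mul, Ideal.mul_top]
    have := hmn m n hmn'
    rw [← neg_sub]
    exact Ideal.neg_mem_iff _ |>.mpr this)
  refine ⟨L, fun n => ?_⟩
  have := hL n
  rw [SModEq.sub_mem, smul_eq_mul, Ideal.mul_top] at this
  rw [← neg_sub]
  exact (Ideal.neg_mem_iff _).mpr this

section Tower

variable (I : Ideal P) (K : ℕ → Ideal P) (e : ℕ → ℕ)

/-- Core step: an element of `K n` is congruent modulo every `K m` to an element of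
`I ^ e n`. -/
theorem exists_mem_pow_sub_mem [IsPrecomplete I P] (he : Monotone e) (hle : ∀ j, j ≤ e j)
    (hK : ∀ j, K (j + 1) ≤ K j) (hI : ∀ j, I ^ e j ≤ K j)
    (hstep : ∀ j, K j ≤ K (j + 1) ⊔ I ^ e j) (n : ℕ) {f : P} (hf : f ∈ K n) :
    ∃ g ∈ I ^ e n, ∀ m, f - g ∈ K m := by
  classical
  have hanti : Antitone K := antitone_nat_of_succ_le hK
  -- one step of the decomposition
  have step : ∀ (m : ℕ) (x : P), x ∈ K (n + m) →
      ∃ y ∈ K (n + (m + 1)), x - y ∈ I ^ e (n + m) := by
    intro m x hx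
    obtain ⟨y, hy, z, hz, rfl⟩ := Submodule.mem_sup.mp (hstep (n + m) hx)
    exact ⟨y, hy, by simpa using hz⟩
  choose! nxt hnxt_mem hnxt_sub using step
  -- the sequence of remainders
  let F : ℕ → P := fun m => Nat.rec f (fun m x => nxt m x) m
  have hF0 : F 0 = f := rfl
  have hFs : ∀ m, F (m + 1) = nxt m (F m) := fun m => rfl
  have hFmem : ∀ m, F m ∈ K (n + m) := by
    intro m
    induction m with
    | zero => simpa [hF0] using hf
    | succ m ih => rw [hFs]; exact hnxt_mem m (F m) ih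
  have hFsub : ∀ m, F m - F (m + 1) ∈ I ^ e (n + m) := fun m => by
    rw [hFs]; exact hnxt_sub m (F m) (hFmem m)
  -- partial sums `S m = f - F m`
  let S : ℕ → P := fun m => f - F m
  have hSd : ∀ m, S (m + 1) - S m = F m - F (m + 1) := fun m => by simp only [S]; ring
  have hS : ∀ m, S (m + 1) - S m ∈ I ^ m := by
    intro m
    rw [hSd]
    exact Ideal.pow_le_pow_right ((Nat.le_add_left m n).trans (hle _)) (hFsub m)
  obtain ⟨g, hg⟩ := exists_adic_limit I S hS
  have hSn : ∀ m, S m ∈ I ^ e n := by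
    intro m
    induction m with
    | zero => simp [S, hF0]
    | succ m ih =>
      have h1 : S (m + 1) - S m ∈ I ^ e n := by
        rw [hSd]
        exact Ideal.pow_le_pow_right (he (Nat.le_add_right n m)) (hFsub m)
      have : S (m + 1) = (S (m + 1) - S m) + S m := by ring
      rw [this]
      exact Ideal.add_mem _ h1 ih
  refine ⟨g, ?_, fun m => ?_⟩
  · have : g = (g - S (e n)) + S (e n) := by ring
    rw [this]
    exact Ideal.add_mem _ (hg (e n)) (hSn (e n))
  · -- `f - g = F (e m) - (g - S (e m))`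
    have : f - g = F (e m) - (g - S (e m)) := by simp only [S]; ring
    rw [this]
    exact Ideal.sub_mem _ (hanti ((hle m).trans (Nat.le_add_left _ n)) (hFmem (e m)))
      (hI m (hg (e m)))

/-- Compatible families modulo the `K j` come from elements of `P`
(surjectivity of `P ⧸ ⨅ K j → lim P ⧸ K j`). -/
theorem exists_limit_of_compatible [IsPrecomplete I P] (he : Monotone e) (hle : ∀ j, j ≤ e j)
    (hK : ∀ j, K (j + 1) ≤ K j) (hI : ∀ j, I ^ e j ≤ K j)
    (hstep : ∀ j, K j ≤ K (j + 1) ⊔ I ^ e j) (p : ℕ → P) (hp : ∀ j, p (j + 1) - p j ∈ K j) :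
    ∃ q : P, ∀ j, q - p j ∈ K j := by
  classical
  have hanti : Antitone K := antitone_nat_of_succ_le hK
  choose g hg hgK using fun n => exists_mem_pow_sub_mem I K e he hle hK hI hstep n (hp n)
  -- corrected sequence
  let p' : ℕ → P := fun n => p 0 + ∑ m ∈ Finset.range n, g m
  have hp'd : ∀ n, p' (n + 1) - p' n = g n := fun n => by
    simp only [p', Finset.sum_range_succ]; ring
  have hp' : ∀ n, p' (n + 1) - p' n ∈ I ^ n := by
    intro n
    rw [hp'd]; exact Ideal.pow_le_pow_right (hle n) (hg n)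
  obtain ⟨q, hq⟩ := exists_adic_limit I p' hp'
  have hdiff : ∀ n, ∀ m, p n - p' n ∈ K m := by
    intro n
    induction n with
    | zero => intro m; simp [p']
    | succ n ih =>
      intro m
      have : p (n + 1) - p' (n + 1) = (p n - p' n) + (p (n + 1) - p n - g n) := by
        simp only [p', Finset.sum_range_succ]; ring
      rw [this]
      exact Ideal.add_mem _ (ih m) (hgK n m)
  -- `p' m - p' n ∈ K n` for `n ≤ m`
  have hp'K : ∀ n m, n ≤ m → p' m - p' n ∈ K n := by
    intro n m hnm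
    induction m, hnm using Nat.le_induction with
    | base => simp
    | succ m hnm ih =>
      have : p' (m + 1) - p' n = (p' (m + 1) - p' m) + (p' m - p' n) := by ring
      rw [this, hp'd]
      exact Ideal.add_mem _ (hanti hnm (hI m (hg m))) ih
  refine ⟨q, fun n => ?_⟩
  have : q - p n = (q - p' (e n)) + (p' (e n) - p' n) - (p n - p' n) := by ring
  rw [this]
  exact Ideal.sub_mem _ (Ideal.add_mem _ (hI n (hq (e n))) (hp'K n (e n) (hle n))) (hdiff n n)

end Tower

/-- **WP-C (Cauchy-sum lemma)**, in the exact shape requested by helper96. -/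
theorem le_iInf_sup_pow {P : Type} [CommRing P] (I : Ideal P) [IsAdicComplete I P]
    (K : ℕ → Ideal P) (e : ℕ → ℕ) (he : Monotone e) (hle : ∀ j, j ≤ e j)
    (hK : ∀ j, K (j + 1) ≤ K j) (hI : ∀ j, I ^ e j ≤ K j)
    (hstep : ∀ j, K j ≤ K (j + 1) ⊔ I ^ e j) : ∀ j, K j ≤ (⨅ m, K m) ⊔ I ^ e j := by
  intro j f hf
  obtain ⟨g, hg, hfg⟩ := exists_mem_pow_sub_mem I K e he hle hK hI hstep j hf
  have : f = (f - g) + g := by ring
  rw [this]
  exact Ideal.add_mem _ (Ideal.mem_sup_left (Ideal.mem_iInf.mpr hfg)) (Ideal.mem_sup_right hg)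

/-- Equality version of `le_iInf_sup_pow`. -/
theorem eq_iInf_sup_pow {P : Type} [CommRing P] (I : Ideal P) [IsAdicComplete I P]
    (K : ℕ → Ideal P) (e : ℕ → ℕ) (he : Monotone e) (hle : ∀ j, j ≤ e j)
    (hK : ∀ j, K (j + 1) ≤ K j) (hI : ∀ j, I ^ e j ≤ K j)
    (hstep : ∀ j, K j ≤ K (j + 1) ⊔ I ^ e j) (j : ℕ) : K j = (⨅ m, K m) ⊔ I ^ e j :=
  le_antisymm (le_iInf_sup_pow I K e he hle hK hI hstep j) (sup_le (iInf_le K j) (hI j))

/-- Compatible families, `IsAdicComplete` version of `exists_limit_of_compatible`. -/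
theorem exists_limit_of_compatible' {P : Type} [CommRing P] (I : Ideal P) [IsAdicComplete I P]
    (K : ℕ → Ideal P) (e : ℕ → ℕ) (he : Monotone e) (hle : ∀ j, j ≤ e j)
    (hK : ∀ j, K (j + 1) ≤ K j) (hI : ∀ j, I ^ e j ≤ K j)
    (hstep : ∀ j, K j ≤ K (j + 1) ⊔ I ^ e j) (p : ℕ → P) (hp : ∀ j, p (j + 1) - p j ∈ K j) :
    ∃ q : P, ∀ j, q - p j ∈ K j :=
  exists_limit_of_compatible I K e he hle hK hI hstep p hp

end Fermat.Agent.S53.H86
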